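/-
M59 / Sink B / cell (G1) [EIS] (helper18), part 2: GAUSS UNITS.  Prefix `m59ei_`.

`O` a local domain with maximal ideal `(π)`, `K = Frac O`; vocabulary of `JT3/Bridge/GaussVal.lean`
(`gq_IsBdd`, `gq_IsQuot`, `gq_res`).  A series `z ∈ K((X))` is a GAUSS UNIT if `z` and `z⁻¹` are bounded
quotients (`m59ei_GU`).

* `m59ei_isBdd_qExpand`, `m59ei_isBdd_twist`: bounded quotients are stable under `X ↦ X^k` and under
  the twists `X ↦ u X`, `u ∈ Oˣ`;
* `m59ei_res_qExpand`: the residue map commutes with `X ↦ X^k`;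
* `m59ei_GU_qExpand_iff`: for a quotient `z ≠ 0`: `z(X^k)` is a Gauss unit iff `z` is;
* `m59ei_GU_mul`, `m59ei_GU_inv`, `m59ei_GU_prod`, `m59ei_GU_twist`, `m59ei_GU_const`.
-/
import Mathlib
import Fermat.Agent.JT3.Bridge.GaussVal
import Fermat.Agent.S28.Formal.Subst

set_option autoImplicit false
set_option linter.unusedSectionVars false
set_option linter.unusedVariables false
set_option linter.style.haveILetI false

noncomputable section

namespace Fermat.Agent.M59

open ModularCurve IsLocalRing Fermat.Agent.JT3 Fermat.Agent.S28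

section Bdd

variable {O : Type*} [CommRing O] [IsDomain O] [IsLocalRing O]
variable {K : Type*} [Field K] [Algebra O K]

/-- a Gauss unit: `z` and `z⁻¹` are bounded quotients. -/
def m59ei_GU (O : Type*) [CommRing O] [IsDomain O] [IsLocalRing O] (K : Type*) [Field K]
    [Algebra O K] (z : LaurentSeries K) : Prop :=
  gq_IsBdd O K z ∧ gq_IsBdd O K z⁻¹

theorem m59ei_isBdd_qExpand (k : ℕ) [NeZero k] {z : LaurentSeries K} (h : gq_IsBdd O K z) :
    gq_IsBdd O K (qExpand K k z) := by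
  obtain ⟨z1, z2, h2, hz⟩ := h
  refine ⟨qExpand O k z1, qExpand O k z2, ?_, ?_⟩
  · rw [fs_coeffMap_qExpand]
    intro h0
    exact h2 (qExpand_injective k (by rw [h0, map_zero]))
  · rw [fs_coeffMap_qExpand, fs_coeffMap_qExpand, ← map_mul, hz]

theorem m59ei_isBdd_twist (u : Oˣ) {z : LaurentSeries K} (h : gq_IsBdd O K z) :
    gq_IsBdd O K (fs_twist (Units.map (algebraMap O K : O →* K) u) z) := by
  obtain ⟨z1, z2, h2, hz⟩ := h
  refine ⟨fs_twist u z1, fs_twist u z2, ?_, ?_⟩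
  · rw [fs_coeffMap_twist]
    intro h0
    exact h2 (fs_twist_injective _ (by rw [h0, map_zero]))
  · rw [fs_coeffMap_twist, fs_coeffMap_twist, ← map_mul, hz]

theorem m59ei_isBdd_mul {z w : LaurentSeries K} (hz : gq_IsBdd O K z) (hw : gq_IsBdd O K w) :
    gq_IsBdd O K (z * w) :=
  (gq_bddSubring O K).mul_mem hz hw

theorem m59ei_isBdd_one : gq_IsBdd O K (1 : LaurentSeries K) := (gq_bddSubring O K).one_mem

theorem m59ei_GU_one : m59ei_GU O K (1 : LaurentSeries K) :=
  ⟨m59ei_isBdd_one, by rw [inv_one]; exact m59ei_isBdd_one⟩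

theorem m59ei_GU_mul {z w : LaurentSeries K} (hz : m59ei_GU O K z) (hw : m59ei_GU O K w) :
    m59ei_GU O K (z * w) :=
  ⟨m59ei_isBdd_mul hz.1 hw.1, by rw [mul_inv]; exact m59ei_isBdd_mul hz.2 hw.2⟩

theorem m59ei_GU_inv {z : LaurentSeries K} (hz : m59ei_GU O K z) : m59ei_GU O K z⁻¹ :=
  ⟨hz.2, by rw [inv_inv]; exact hz.1⟩

theorem m59ei_GU_pow {z : LaurentSeries K} (hz : m59ei_GU O K z) (n : ℕ) :
    m59ei_GU O K (z ^ n) := by
  induction n with
  | zero => rw [pow_zero]; exact m59ei_GU_one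
  | succ n ih => rw [pow_succ]; exact m59ei_GU_mul ih hz

theorem m59ei_GU_zpow {z : LaurentSeries K} (hz : m59ei_GU O K z) (n : ℤ) :
    m59ei_GU O K (z ^ n) := by
  obtain ⟨k, rfl | rfl⟩ := n.eq_nat_or_neg
  · rw [zpow_natCast]; exact m59ei_GU_pow hz k
  · rw [zpow_neg, zpow_natCast]; exact m59ei_GU_inv (m59ei_GU_pow hz k)

theorem m59ei_GU_prod {ι : Type*} (s : Finset ι) (f : ι → LaurentSeries K)
    (h : ∀ i ∈ s, m59ei_GU O K (f i)) : m59ei_GU O K (∏ i ∈ s, f i) := by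
  classical
  induction s using Finset.induction_on with
  | empty => rw [Finset.prod_empty]; exact m59ei_GU_one
  | insert a s ha ih =>
    rw [Finset.prod_insert ha]
    exact m59ei_GU_mul (h a (Finset.mem_insert_self a s))
      (ih fun i hi => h i (Finset.mem_insert_of_mem hi))

theorem m59ei_GU_qExpand (k : ℕ) [NeZero k] {z : LaurentSeries K} (hz : m59ei_GU O K z) :
    m59ei_GU O K (qExpand K k z) :=
  ⟨m59ei_isBdd_qExpand k hz.1, by rw [← map_inv₀]; exact m59ei_isBdd_qExpand k hz.2⟩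

theorem m59ei_GU_twist (u : Oˣ) {z : LaurentSeries K} (hz : m59ei_GU O K z) :
    m59ei_GU O K (fs_twist (Units.map (algebraMap O K : O →* K) u) z) :=
  ⟨m59ei_isBdd_twist u hz.1, by rw [← map_inv₀]; exact m59ei_isBdd_twist u hz.2⟩

end Bdd

section Res

variable {O : Type*} [CommRing O] [IsDomain O] [IsLocalRing O]
variable {K : Type*} [Field K] [Algebra O K] [IsFractionRing O K]

/-- the residue map commutes with `X ↦ X^k`. -/
theorem m59ei_res_qExpand (k : ℕ) [NeZero k] (z : ↥(gq_bddSubring O K)) :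
    gq_res O K ⟨qExpand K k (z : LaurentSeries K), m59ei_isBdd_qExpand k z.2⟩ =
      qExpand (ResidueField O) k (gq_res O K z) := by
  obtain ⟨z1, z2, h2, hz⟩ := z.2
  have h2' : coeffMap (residue O) (qExpand O k z2) ≠ 0 := by
    rw [fs_coeffMap_qExpand]
    intro h0
    exact h2 (qExpand_injective k (by rw [h0, map_zero]))
  rw [gq_res_eq z h2 hz, gq_res_eq _ (z1 := qExpand O k z1) (z2 := qExpand O k z2) h2'
    (by
      show qExpand K k (z : LaurentSeries K) * _ = _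
      rw [fs_coeffMap_qExpand, fs_coeffMap_qExpand, ← map_mul, hz]),
    fs_coeffMap_qExpand, fs_coeffMap_qExpand, map_div₀]

/-- for a bounded `z ≠ 0`: `z(X^k)⁻¹` is bounded iff `z⁻¹` is. -/
theorem m59ei_isBdd_inv_qExpand_iff (k : ℕ) [NeZero k] {z : LaurentSeries K}
    (hz : gq_IsBdd O K z) (hz0 : z ≠ 0) :
    gq_IsBdd O K (qExpand K k z)⁻¹ ↔ gq_IsBdd O K z⁻¹ := by
  constructor
  · intro h
    have hq0 : qExpand K k z ≠ 0 := fun h0 => hz0 (qExpand_injective k (by rw [h0, map_zero]))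
    have h1 := gq_res_ne_zero_of_inv
      (⟨qExpand K k z, m59ei_isBdd_qExpand k hz⟩ : ↥(gq_bddSubring O K)) h hq0
    have h2 : gq_res O K (⟨z, hz⟩ : ↥(gq_bddSubring O K)) ≠ 0 := by
      intro h0
      apply h1
      have := m59ei_res_qExpand k (⟨z, hz⟩ : ↥(gq_bddSubring O K))
      rw [h0, map_zero] at this
      exact this
    exact gq_isBdd_inv_of_res_ne_zero (⟨z, hz⟩ : ↥(gq_bddSubring O K)) h2
  · intro h
    rw [← map_inv₀]
    exact m59ei_isBdd_qExpand k h

variable [WfDvdMonoid O]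

/-- **for a quotient `z ≠ 0`: `z(X^k)` is a Gauss unit iff `z` is.** -/
theorem m59ei_GU_qExpand_iff (π : O) (hπ0 : π ≠ 0) (hπ : maximalIdeal O = Ideal.span {π})
    (k : ℕ) [NeZero k] {z : LaurentSeries K} (hz : gq_IsQuot O K z) (hz0 : z ≠ 0) :
    m59ei_GU O K (qExpand K k z) ↔ m59ei_GU O K z := by
  refine ⟨fun h => ?_, m59ei_GU_qExpand k⟩
  rcases gq_isBdd_or_inv π hπ0 hπ hz with hb | hb
  · exact ⟨hb, (m59ei_isBdd_inv_qExpand_iff k hb hz0).1 h.2⟩
  · have hi0 : z⁻¹ ≠ 0 := inv_ne_zero hz0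
    have h1 : gq_IsBdd O K (qExpand K k z⁻¹)⁻¹ := by
      rw [map_inv₀, inv_inv]
      exact h.1
    have h2 := (m59ei_isBdd_inv_qExpand_iff k hb hi0).1 h1
    rw [inv_inv] at h2
    exact ⟨h2, hb⟩

end Res

end Fermat.Agent.M59
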