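/-
M59 / Sink B / cell (G1) [EIS] (helper18), part 3: RULE A.  Prefix `m59ei_`.

`L` a field of characteristic zero inside `Q̄`, `N` any level, `ℓ ∤ N` a prime, `ζ ∈ Lˣ` a primitive
`ℓ`-th root of unity, `F_N(L) = laurentBaseChange L (modularFunctionFieldFull N)`,
`T_ℓ y := N_{α_ℓ} (β_ℓ y)` (`α_ℓ = heckeAlphaBar L N ℓ`, `β_ℓ = heckeBetaBar L N ℓ`).

* `m59ei_hecke_prod` : THE PRODUCT FORMULA = helper24's `dsh_nl_norm` instantiated at the pair
  `(F_N(L), F_{N ℓ}(L))` with the swap `ssm_al_W` (no complex numbers):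
    `(T_ℓ y)(X^ℓ) = y(X^{ℓ²}) · ∏_{b<ℓ} y(ζ^b X)`;
* `m59ei_GU_hecke`   : RULE A: over a discrete valuation ring `O` of `L`, `T_ℓ` maps Gauss units to
  Gauss units (`m59ei_GU`, Eis/Gauss.lean);
* `m59ei_hecke_const`: `T_ℓ c = c ^ (ℓ + 1)` on constants.
-/
import Mathlib
import Fermat.Agent.M59.SinkB.Eis.Gauss
import Fermat.Agent.DS.Hecke.NormRed
import Fermat.Agent.S35.DescU.NormBC
import Fermat.Agent.S35.RedN.InstFull
import Fermat.Agent.S36.Desc.NormBar

set_option autoImplicit false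
set_option linter.unusedSectionVars false
set_option linter.unusedVariables false
set_option linter.style.haveILetI false
set_option synthInstance.maxHeartbeats 400000
set_option maxHeartbeats 1000000

noncomputable section

namespace Fermat.Agent.M59

open ModularCurve AlgebraicCurve IntermediateField IsLocalRing
open Fermat.Agent.JT3 Fermat.Agent.SS Fermat.Agent.S28 Fermat.Agent.S35 Fermat.Agent.S36
  Fermat.Agent.DS

local notation "Qb" => AlgebraicClosure ℚ

section Prod

variable (L : Type*) [Field L] [Algebra ℚ L] [Algebra L Qb]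
  (N ℓ : ℕ) [NeZero N] [NeZero ℓ]

/-- the multiplicative Hecke operator on functions over `L`: `y ↦ N_α (β y)`. -/
def m59ei_T (y : laurentBaseChange L (modularFunctionFieldFull N)) :
    laurentBaseChange L (modularFunctionFieldFull N) :=
  s35pe_normAlong (heckeAlphaBar L N ℓ) (heckeBetaBar L N ℓ y)

theorem m59ei_T_apply (y : laurentBaseChange L (modularFunctionFieldFull N)) :
    m59ei_T L N ℓ y = s35pe_normAlong (heckeAlphaBar L N ℓ) (heckeBetaBar L N ℓ y) := rfl

theorem m59ei_T_one : m59ei_T L N ℓ 1 = 1 := by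
  rw [m59ei_T_apply, map_one, map_one]

theorem m59ei_T_mul (x y : laurentBaseChange L (modularFunctionFieldFull N)) :
    m59ei_T L N ℓ (x * y) = m59ei_T L N ℓ x * m59ei_T L N ℓ y := by
  rw [m59ei_T_apply, map_mul, map_mul]
  rfl

/-- `T_ℓ` as a monoid homomorphism. -/
def m59ei_Thom : laurentBaseChange L (modularFunctionFieldFull N) →*
    laurentBaseChange L (modularFunctionFieldFull N) where
  toFun := m59ei_T L N ℓ
  map_one' := m59ei_T_one L N ℓ
  map_mul' := m59ei_T_mul L N ℓ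

theorem m59ei_Thom_apply (y : laurentBaseChange L (modularFunctionFieldFull N)) :
    m59ei_Thom L N ℓ y = m59ei_T L N ℓ y := rfl

theorem m59ei_T_pow (y : laurentBaseChange L (modularFunctionFieldFull N)) (n : ℕ) :
    m59ei_T L N ℓ (y ^ n) = m59ei_T L N ℓ y ^ n :=
  map_pow (m59ei_Thom L N ℓ) y n

variable (hℓ : ℓ.Prime) (hℓN : ¬ ℓ ∣ N)

include hℓ hℓN in
theorem m59ei_T_ne_zero {y : laurentBaseChange L (modularFunctionFieldFull N)} (hy : y ≠ 0) :
    m59ei_T L N ℓ y ≠ 0 := by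
  rw [m59ei_T_apply]
  refine s36d_normAlong_ne_zero _ ?_ ?_
  · rw [s35d_finrankAlong_alpha L N ℓ hℓ hℓN]
    exact Nat.succ_pos ℓ
  · rwa [Ne, map_eq_zero]

include hℓ hℓN in
theorem m59ei_T_inv (y : laurentBaseChange L (modularFunctionFieldFull N)) :
    m59ei_T L N ℓ y⁻¹ = (m59ei_T L N ℓ y)⁻¹ := by
  rcases eq_or_ne y 0 with rfl | hy
  · rw [inv_zero]
    have h0 : m59ei_T L N ℓ (0 : laurentBaseChange L (modularFunctionFieldFull N)) = 0 := by
      rw [m59ei_T_apply, map_zero]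
      letI := algebraAlong (heckeAlphaBar L N ℓ)
      have hfr : 0 < Module.finrank (laurentBaseChange L (modularFunctionFieldFull N))
          (laurentBaseChange L (modularFunctionFieldFull (N * ℓ))) := by
        have := s35d_finrankAlong_alpha L N ℓ hℓ hℓN
        rw [finrankAlong] at this
        rw [this]
        exact Nat.succ_pos ℓ
      haveI : FiniteDimensional (laurentBaseChange L (modularFunctionFieldFull N))
          (laurentBaseChange L (modularFunctionFieldFull (N * ℓ))) :=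
        Module.finite_of_finrank_pos hfr
      rw [s35pe_normAlong_apply]
      exact Algebra.norm_zero
    rw [h0, inv_zero]
  · have h1 : m59ei_T L N ℓ y * m59ei_T L N ℓ y⁻¹ = 1 := by
      rw [← m59ei_T_mul, mul_inv_cancel₀ hy, m59ei_T_one]
    exact eq_inv_of_mul_eq_one_right h1

include hℓ hℓN in
theorem m59ei_T_zpow (y : laurentBaseChange L (modularFunctionFieldFull N)) (n : ℤ) :
    m59ei_T L N ℓ (y ^ n) = m59ei_T L N ℓ y ^ n := by
  obtain ⟨k, rfl | rfl⟩ := n.eq_nat_or_neg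
  · rw [zpow_natCast, zpow_natCast, m59ei_T_pow]
  · rw [zpow_neg, zpow_neg, zpow_natCast, zpow_natCast, m59ei_T_inv L N ℓ hℓ hℓN, m59ei_T_pow]

include hℓ hℓN in
/-- `T_ℓ c = c ^ (ℓ + 1)` on constants. -/
theorem m59ei_hecke_const (c : L) :
    m59ei_T L N ℓ (algebraMap L (laurentBaseChange L (modularFunctionFieldFull N)) c) =
      algebraMap L (laurentBaseChange L (modularFunctionFieldFull N)) (c ^ (ℓ + 1)) := by
  rw [m59ei_T_apply, AlgHom.commutes, s36d_normAlong_const, s35d_finrankAlong_alpha L N ℓ hℓ hℓN]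


/-- the swap embedding `F_{N ℓ}(L) → L((X))`: the Atkin–Lehner involution at `ℓ` followed by the
`q`-expansion. -/
def m59ei_swap : laurentBaseChange L (modularFunctionFieldFull (N * ℓ)) →+* LaurentSeries L :=
  haveI : CharZero L := algebraRat.charZero L
  ((lg_F L (N * ℓ)).val : lg_F L (N * ℓ) →+* LaurentSeries L).comp
    (((ssm_al_W L N ℓ hℓ hℓN : lg_F L (N * ℓ) ≃ₐ[L] lg_F L (N * ℓ)) :
      lg_F L (N * ℓ) →+* lg_F L (N * ℓ)).comp
      (IntermediateField.inclusion (le_of_eq (s35d_FL_eq L (N * ℓ))) :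
        laurentBaseChange L (modularFunctionFieldFull (N * ℓ)) →+* lg_F L (N * ℓ)))

theorem m59ei_swap_apply (z : laurentBaseChange L (modularFunctionFieldFull (N * ℓ))) :
    haveI : CharZero L := algebraRat.charZero L
    m59ei_swap L N ℓ hℓ hℓN z =
      ((ssm_al_W L N ℓ hℓ hℓN ⟨(z : LaurentSeries L), le_of_eq (s35d_FL_eq L (N * ℓ)) z.2⟩ :
        lg_F L (N * ℓ)) : LaurentSeries L) := rfl

theorem m59ei_mem_lgF (x : laurentBaseChange L (modularFunctionFieldFull N)) :
    (x : LaurentSeries L) ∈ lg_F L N := by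
  rw [← s35d_FL_eq]
  exact x.2

theorem m59ei_swap_alpha (x : laurentBaseChange L (modularFunctionFieldFull N)) :
    m59ei_swap L N ℓ hℓ hℓN (heckeAlphaBar L N ℓ x) = qExpand L ℓ (x : LaurentSeries L) := by
  haveI : CharZero L := algebraRat.charZero L
  have h2 : (x : LaurentSeries L) ∈ lg_F L (N * ℓ) :=
    ssm_al_mem_of_mem L N ℓ (m59ei_mem_lgF L N x)
  have e : (⟨((heckeAlphaBar L N ℓ x : laurentBaseChange L (modularFunctionFieldFull (N * ℓ))) :
      LaurentSeries L), le_of_eq (s35d_FL_eq L (N * ℓ)) (heckeAlphaBar L N ℓ x).2⟩ :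
      lg_F L (N * ℓ)) = ⟨(x : LaurentSeries L), h2⟩ := Subtype.ext (coe_heckeAlphaBar N ℓ x)
  exact (m59ei_swap_apply L N ℓ hℓ hℓN _).trans
    ((congrArg (fun t : lg_F L (N * ℓ) =>
      ((ssm_al_W L N ℓ hℓ hℓN t : lg_F L (N * ℓ)) : LaurentSeries L)) e).trans
      (ssm_al_coe_W_of_mem L N ℓ hℓ hℓN (m59ei_mem_lgF L N x) h2))

theorem m59ei_swap_beta (x : laurentBaseChange L (modularFunctionFieldFull N)) :
    m59ei_swap L N ℓ hℓ hℓN (heckeBetaBar L N ℓ x) = (x : LaurentSeries L) := by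
  haveI : CharZero L := algebraRat.charZero L
  have h2 : qExpand L ℓ (x : LaurentSeries L) ∈ lg_F L (N * ℓ) :=
    ssm_al_expand_mem L N ℓ (m59ei_mem_lgF L N x)
  have e : (⟨((heckeBetaBar L N ℓ x : laurentBaseChange L (modularFunctionFieldFull (N * ℓ))) :
      LaurentSeries L), le_of_eq (s35d_FL_eq L (N * ℓ)) (heckeBetaBar L N ℓ x).2⟩ :
      lg_F L (N * ℓ)) = ⟨qExpand L ℓ (x : LaurentSeries L), h2⟩ :=
    Subtype.ext (coe_heckeBetaBar N ℓ x)
  exact (m59ei_swap_apply L N ℓ hℓ hℓN _).trans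
    ((congrArg (fun t : lg_F L (N * ℓ) =>
      ((ssm_al_W L N ℓ hℓ hℓN t : lg_F L (N * ℓ)) : LaurentSeries L)) e).trans
      (ssm_al_coe_W_expand_of_mem L N ℓ hℓ hℓN (m59ei_mem_lgF L N x) h2))

include hℓ hℓN in
/-- **the product formula** for `T_ℓ` on `F_N(L)`, `ℓ ∤ N`, `ζ_ℓ ∈ L`. -/
theorem m59ei_hecke_prod (ζ : Lˣ) (hζ : IsPrimitiveRoot ζ ℓ)
    (y : laurentBaseChange L (modularFunctionFieldFull N)) :
    qExpand L ℓ ((m59ei_T L N ℓ y : laurentBaseChange L (modularFunctionFieldFull N)) :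
        LaurentSeries L) =
      qExpand L (ℓ ^ 2) (y : LaurentSeries L) *
        ∏ b ∈ Finset.range ℓ, fs_twist (ζ ^ b) (y : LaurentSeries L) := by
  haveI : CharZero L := algebraRat.charZero L
  set e : laurentBaseChange L (modularFunctionFieldFull N) →+* LaurentSeries L :=
    ((laurentBaseChange L (modularFunctionFieldFull N)).val :
      laurentBaseChange L (modularFunctionFieldFull N) →+* LaurentSeries L) with he
  set e' : laurentBaseChange L (modularFunctionFieldFull (N * ℓ)) →+* LaurentSeries L :=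
    ((laurentBaseChange L (modularFunctionFieldFull (N * ℓ))).val :
      laurentBaseChange L (modularFunctionFieldFull (N * ℓ)) →+* LaurentSeries L) with he'
  have hα : ∀ x : laurentBaseChange L (modularFunctionFieldFull N),
      e' (heckeAlphaBar L N ℓ x) = e x := fun x => coe_heckeAlphaBar N ℓ x
  have hβ : ∀ x : laurentBaseChange L (modularFunctionFieldFull N),
      e' (heckeBetaBar L N ℓ x) = qExpand L ℓ (e x) := fun x => coe_heckeBetaBar N ℓ x
  have hwα : ∀ x : laurentBaseChange L (modularFunctionFieldFull N),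
      m59ei_swap L N ℓ hℓ hℓN (heckeAlphaBar L N ℓ x) =
        coeffMap (RingHom.id L) (qExpand L ℓ (e x)) := fun x =>
    (m59ei_swap_alpha L N ℓ hℓ hℓN x).trans (coeffMap_id _).symm
  have hwβ : ∀ x : laurentBaseChange L (modularFunctionFieldFull N),
      m59ei_swap L N ℓ hℓ hℓN (heckeBetaBar L N ℓ x) =
        coeffMap (RingHom.id L) (e (id x)) := fun x =>
    (m59ei_swap_beta L N ℓ hℓ hℓN x).trans (coeffMap_id _).symm
  have hj : jqModC L ∈ laurentBaseChange L (modularFunctionFieldFull N) := by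
    rw [← lg_F_eq_laurentBaseChange]
    exact jqModC_mem_full L N
  have hs : (e (id (⟨jqModC L, hj⟩ : laurentBaseChange L (modularFunctionFieldFull N)))).coeff
      (-1) ≠ 0 := by
    show (jqModC L).coeff (-1) ≠ 0
    rw [coeff_jqModC_neg_one]
    exact one_ne_zero
  have key := dsh_nl_norm (F := laurentBaseChange L (modularFunctionFieldFull N))
    (F' := laurentBaseChange L (modularFunctionFieldFull (N * ℓ))) e e'
    (RingHom.id L) ℓ hℓ (heckeAlphaBar L N ℓ) (heckeBetaBar L N ℓ) id hα hβ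
    (s35d_finrankAlong_alpha L N ℓ hℓ hℓN) (m59ei_swap L N ℓ hℓ hℓN) hwα hwβ
    ⟨jqModC L, hj⟩ hs ζ hζ y
  exact key

end Prod

section Gauss

variable {L : Type*} [Field L] [Algebra ℚ L] [Algebra L Qb]
  (O : ValuationSubring L) [IsDiscreteValuationRing O] {π : O} (hπ : Irreducible π)
  (N ℓ : ℕ) [NeZero N] [NeZero ℓ] (hℓ : ℓ.Prime) (hℓN : ¬ ℓ ∣ N)

/-- elements of `F_N(L)` are quotients of series with coefficients in `O`. -/
theorem m59ei_isQuot (y : laurentBaseChange L (modularFunctionFieldFull N)) :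
    gq_IsQuot ↥O L (y : LaurentSeries L) := by
  have h : (y : LaurentSeries L) ∈ lg_F L N := by
    rw [← s35d_FL_eq]
    exact y.2
  exact rdn_gf_le_quotField O N h

include hπ hℓ hℓN in
/-- **RULE A**: `T_ℓ` maps Gauss units to Gauss units. -/
theorem m59ei_GU_hecke (ζ : Lˣ) (hζ : IsPrimitiveRoot ζ ℓ)
    (y : laurentBaseChange L (modularFunctionFieldFull N)) (hy0 : y ≠ 0)
    (hy : m59ei_GU ↥O L (y : LaurentSeries L)) :
    m59ei_GU ↥O L ((m59ei_T L N ℓ y : laurentBaseChange L (modularFunctionFieldFull N)) :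
      LaurentSeries L) := by
  have hζpow : ζ ^ ℓ = 1 := hζ.pow_eq_one
  set ζA : (↥O)ˣ := dsh_nl_unit O (NeZero.ne ℓ) ζ hζpow with hζA
  have hζAmap : Units.map (O.subtype : ↥O →* L) ζA = ζ := dsh_nl_map_unit O _ ζ hζpow
  have hT0 : m59ei_T L N ℓ y ≠ 0 := m59ei_T_ne_zero L N ℓ hℓ hℓN hy0
  have hT0' : ((m59ei_T L N ℓ y : laurentBaseChange L (modularFunctionFieldFull N)) :
      LaurentSeries L) ≠ 0 := fun h => hT0 (Subtype.ext h)
  rw [← m59ei_GU_qExpand_iff π hπ.ne_zero hπ.maximalIdeal_eq ℓ (m59ei_isQuot O N _) hT0',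
    m59ei_hecke_prod L N ℓ hℓ hℓN ζ hζ y]
  refine m59ei_GU_mul (m59ei_GU_qExpand (ℓ ^ 2) hy) (m59ei_GU_prod _ _ fun b _ => ?_)
  have e : ζ ^ b = Units.map (algebraMap ↥O L : ↥O →* L) (ζA ^ b) := by
    rw [map_pow]
    congr 1
  rw [e]
  exact m59ei_GU_twist (ζA ^ b) hy

end Gauss

end Fermat.Agent.M59
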