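/-
M59 / Sink B / cell (G1) [EIS] (helper18), part 4 = (C1) [EIG-DESC]: THE EIGEN-RELATION OVER AN
ARBITRARY FIELD OF DEFINITION.  Prefix `m59ei_`.

`N` any level, `ℓ ∤ N` a prime, `z ∈ J₀(N)` with `T_ℓ z = a • z` (`a : ℤ`), `f` a Kummer
representative of `z` of exponent `p` (`s44f_Rep N p z f`) which descends to a subfield `L1 ⊆ Q̄` up
to a constant and a `p`-th power: `f = c₀ · r₀^p · bc g1`, `g1 ∈ F_N(L1)`.  Then OVER `L1`:

    `N_{α_ℓ} (β_ℓ g1) = a' · s^p · g1^a`,   `a' ∈ L1ˣ`, `s ∈ F_N(L1)ˣ`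

(`m59ei_eigenRel`).  Inputs: `s44hr_rep_hecke` (the function `N_α (β f)` represents `T_ℓ z`),
`s44b_rep_unique`, the base change of the norm `s35d_norm_bc_alpha`, and helper22's root descent
`ss2_dp_root_descent` (no root of a constant is adjoined, so `L1` is NOT enlarged).
-/
import Mathlib
import Fermat.Agent.M59.SinkB.Eis.RuleA
import Fermat.Agent.S44.HeckeRes.RepHecke
import Fermat.Agent.S44.Bridge.Rep
import Fermat.Agent.SS2.DescPhi.Root
import Fermat.Agent.JT3.Riemann.FBar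

set_option autoImplicit false
set_option linter.unusedSectionVars false
set_option linter.unusedVariables false
set_option linter.style.haveILetI false
set_option synthInstance.maxHeartbeats 400000
set_option maxHeartbeats 1000000

noncomputable section

namespace Fermat.Agent.M59

open ModularCurve AlgebraicCurve IntermediateField
open Fermat.Agent.JT3 Fermat.Agent.SS Fermat.Agent.S24 Fermat.Agent.S35 Fermat.Agent.S36
  Fermat.Agent.S44 Fermat.Agent.SS2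

local notation "Qb" => AlgebraicClosure ℚ

section Rep

variable (N : ℕ) [NeZero N] {p : ℕ}

/-- integer powers of a representative represent the integer multiples. -/
theorem m59ei_rep_zpow {z : JZero N} {f : modularFunctionFieldBar N} (hf : s44f_Rep N p z f)
    (a : ℤ) : s44f_Rep N p (a • z) (f ^ a) := by
  obtain ⟨k, rfl | rfl⟩ := a.eq_nat_or_neg
  · rw [natCast_zsmul, zpow_natCast]
    exact s44b_rep_pow N hf k
  · rw [neg_smul, natCast_zsmul, zpow_neg, zpow_natCast]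
    exact s44b_rep_inv N (s44b_rep_pow N hf k)

end Rep

section EigenRel

variable (N p ℓ : ℕ) [NeZero N] [NeZero ℓ]
  (L1 : Type) [Field L1] [Algebra ℚ L1] [Algebra L1 Qb] [IsScalarTower ℚ L1 Qb]

/-- `T_ℓ` commutes with the extension of constants `L1 → Q̄`. -/
theorem m59ei_T_bc (hℓ : ℓ.Prime) (hℓN : ¬ ℓ ∣ N)
    (g : laurentBaseChange L1 (modularFunctionFieldFull N)) :
    m59ei_T Qb N ℓ (dsc_bcHom L1 Qb (modularFunctionFieldFull N) g) =
      dsc_bcHom L1 Qb (modularFunctionFieldFull N) (m59ei_T L1 N ℓ g) := by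
  rw [m59ei_T_apply, m59ei_T_apply, ← s36d_bc_beta, s35d_norm_bc_alpha N ℓ hℓ hℓN L1]

/-- **(C1) [EIG-DESC]: the eigen-relation over `L1`.** -/
theorem m59ei_eigenRel (hp : p ≠ 0) (hℓ : ℓ.Prime) (hℓN : ¬ ℓ ∣ N)
    (z : JZero N) (a : ℤ) (hz : heckeOperatorBar N ⟨ℓ, hℓ⟩ z = a • z)
    (f : modularFunctionFieldBar N) (hf : s44f_Rep N p z f)
    (g1 : laurentBaseChange L1 (modularFunctionFieldFull N)) (c₀ : Qb)
    (r₀ : modularFunctionFieldBar N) (hg1 : g1 ≠ 0) (hc₀ : c₀ ≠ 0) (hr₀ : r₀ ≠ 0)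
    (hfeq : f = algebraMap Qb (modularFunctionFieldBar N) c₀ * r₀ ^ p *
      dsc_bcHom L1 Qb (modularFunctionFieldFull N) g1) :
    ∃ (a' : L1) (s : laurentBaseChange L1 (modularFunctionFieldFull N)), a' ≠ 0 ∧ s ≠ 0 ∧
      m59ei_T L1 N ℓ g1 =
        algebraMap L1 (laurentBaseChange L1 (modularFunctionFieldFull N)) a' * s ^ p * g1 ^ a := by
  classical
  have hT : s44f_Rep N p (heckeOperatorBar N ⟨ℓ, hℓ⟩ z) (s44hr_T N ℓ f) :=
    s44hr_rep_hecke N p ⟨ℓ, hℓ⟩ z f hf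
  rw [hz] at hT
  obtain ⟨c, h, hc, hh, e⟩ := s44b_rep_unique N (m59ei_rep_zpow N hf a) hT
  have eT : s44hr_T N ℓ f = m59ei_T Qb N ℓ f := rfl
  rw [eT] at e
  set B := dsc_bcHom L1 Qb (modularFunctionFieldFull N) with hB
  have hTf : m59ei_T Qb N ℓ f =
      algebraMap Qb (modularFunctionFieldBar N) (c₀ ^ (ℓ + 1)) * (m59ei_T Qb N ℓ r₀) ^ p *
        B (m59ei_T L1 N ℓ g1) := by
    rw [hfeq, m59ei_T_mul, m59ei_T_mul, m59ei_T_pow, m59ei_hecke_const Qb N ℓ hℓ hℓN,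
      m59ei_T_bc N ℓ L1 hℓ hℓN]
  have hfa : f ^ a = algebraMap Qb (modularFunctionFieldBar N) (c₀ ^ a) * (r₀ ^ a) ^ p *
      B (g1 ^ a) := by
    rw [hfeq, mul_zpow, mul_zpow, map_zpow₀, map_zpow₀, ← zpow_natCast (r₀ ^ a), ← zpow_mul,
      mul_comm a, zpow_mul, zpow_natCast]
  have hga : g1 ^ a ≠ 0 := zpow_ne_zero _ hg1
  have hBga : B (g1 ^ a) ≠ 0 := by rwa [Ne, map_eq_zero]
  have hP : algebraMap Qb (modularFunctionFieldBar N) (c₀ ^ (ℓ + 1)) ≠ 0 := by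
    rw [Ne, map_eq_zero]
    exact pow_ne_zero _ hc₀
  have hQ : m59ei_T Qb N ℓ r₀ ≠ 0 := m59ei_T_ne_zero Qb N ℓ hℓ hℓN hr₀
  have hroot : B (m59ei_T L1 N ℓ g1 * (g1 ^ a)⁻¹) =
      algebraMap Qb (modularFunctionFieldBar N) (c * c₀ ^ a / c₀ ^ (ℓ + 1)) *
        (h * r₀ ^ a / m59ei_T Qb N ℓ r₀) ^ p := by
    have e2 : algebraMap Qb (modularFunctionFieldBar N) (c₀ ^ (ℓ + 1)) *
        (m59ei_T Qb N ℓ r₀) ^ p * B (m59ei_T L1 N ℓ g1) =
        algebraMap Qb (modularFunctionFieldBar N) c *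
          (algebraMap Qb (modularFunctionFieldBar N) (c₀ ^ a) * (r₀ ^ a) ^ p * B (g1 ^ a)) *
          h ^ p := by
      rw [← hTf, e, hfa]
    rw [map_mul, map_inv₀, map_div₀, map_mul, div_pow, mul_pow]
    have hQp : (m59ei_T Qb N ℓ r₀) ^ p ≠ 0 := pow_ne_zero _ hQ
    field_simp
    linear_combination e2
  obtain ⟨a', s, has⟩ := ss2_dp_root_descent L1 (rt_isSepGen_jBar N) hp _ _ _ hroot
  have hT1 : m59ei_T L1 N ℓ g1 ≠ 0 := m59ei_T_ne_zero L1 N ℓ hℓ hℓN hg1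
  have hne : m59ei_T L1 N ℓ g1 * (g1 ^ a)⁻¹ ≠ 0 := mul_ne_zero hT1 (inv_ne_zero hga)
  refine ⟨a', s, ?_, ?_, ?_⟩
  · rintro rfl
    rw [map_zero, zero_mul] at has
    exact hne has
  · rintro rfl
    rw [zero_pow hp, mul_zero] at has
    exact hne has
  · rw [← has, mul_assoc, inv_mul_cancel₀ hga, mul_one]

end EigenRel

end Fermat.Agent.M59
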