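/-
M59 / Sink B / cell (G1) [EIS] (helper18), part 5: THE NORM TO LEVEL `N` COMMUTES WITH `T_ℓ` AND WITH
THE PASSAGE TO THE LEGENDRE COVER.  Prefix `m59ei_`.

`q` a prime, `q ∣ A` (level pair `(A q, A)`), `ℓ ∤ A q` a prime.

* `m59ei_norm_comm`  : OVER ANY SUBFIELD `L1 ⊆ Q̄`:  `N_{α_q} (T_ℓ^{A q} g) = T_ℓ^{A} (N_{α_q} g)` for
  `g ∈ F_{A q}(L1)` — from helper26's `s36pe_norm_comm_alpha` over `Q̄` by the injectivity of the
  extension of constants `dsc_bcHom`, the base change of the norm `s36d_norm_bc_alpha` and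
  `m59ei_T_bc`;
* `m59ei_cover_norm` : (`q` odd) `Norm_{E₂/E₁} (ι y) = ι (N_{α_q} y)` for `y ∈ F_{A q}(L)`,
  `E₁ = lg_E L A ≤ E₂ = lg_E L (A q)`, `ι = ss2_dp_iota = (X ↦ X²)` — the identity proved inside
  `s36d_cover_norms`, for the pair `(A q, A)` with `q ∣ A`.
-/
import Mathlib
import Fermat.Agent.M59.SinkB.Eis.EigenRel
import Fermat.Agent.S36.PEquiv2.Inst
import Fermat.Agent.S36.PEquiv2.DegE
import Fermat.Agent.SS2.DescPhi.NormCover

set_option autoImplicit false
set_option linter.unusedSectionVars false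
set_option linter.unusedVariables false
set_option linter.style.haveILetI false
set_option synthInstance.maxHeartbeats 400000
set_option maxHeartbeats 1000000

noncomputable section

namespace Fermat.Agent.M59

open ModularCurve AlgebraicCurve IntermediateField
open Fermat.Agent.JT3 Fermat.Agent.SS Fermat.Agent.S24 Fermat.Agent.S35 Fermat.Agent.S36
  Fermat.Agent.SS2

local notation "Qb" => AlgebraicClosure ℚ

section NormComm

variable (L1 : Type) [Field L1] [Algebra ℚ L1] [Algebra L1 Qb] [IsScalarTower ℚ L1 Qb]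
  (A q ℓ : ℕ) [NeZero A] [NeZero q] [NeZero ℓ]

/-- **the norm along `α_q` commutes with `T_ℓ`, over any subfield of `Q̄`.** -/
theorem m59ei_norm_comm (hq : q.Prime) (hqA : q ∣ A) (hℓ : ℓ.Prime) (hℓA : ¬ ℓ ∣ A * q)
    (g : laurentBaseChange L1 (modularFunctionFieldFull (A * q))) :
    s35pe_normAlong (heckeAlphaBar L1 A q) (m59ei_T L1 (A * q) ℓ g) =
      m59ei_T L1 A ℓ (s35pe_normAlong (heckeAlphaBar L1 A q) g) := by
  have hℓA' : ¬ ℓ ∣ A := fun h => hℓA (h.mul_right q)
  apply dsc_bcHom_injective L1 Qb (modularFunctionFieldFull A)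
  rw [← s36d_norm_bc_alpha L1 A q hq hqA, ← m59ei_T_bc (A * q) ℓ L1 hℓ hℓA,
    ← m59ei_T_bc A ℓ L1 hℓ hℓA', ← s36d_norm_bc_alpha L1 A q hq hqA]
  exact s36pe_norm_comm_alpha A q ℓ hq hqA _

end NormComm

section Cover

variable (L : Type*) [Field L] [Algebra ℚ L] [CharZero L] [Algebra L Qb]
  (A q : ℕ) [NeZero A] [NeZero q]

/-- a subfield of `E₂ = lg_E L (A q)` containing `E₁ = lg_E L A` and `ι F_{A q}` is everything. -/
theorem m59ei_cover_gen (S : Subfield (lg_E L (A * q)))
    (h1 : ∀ x : lg_E L A, IntermediateField.inclusion (ssm_al_E_le L A q) x ∈ S)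
    (h2 : ∀ y : laurentBaseChange L (modularFunctionFieldFull (A * q)),
      ss2_dp_iota L (A * q) y ∈ S) : S = ⊤ := by
  refine s35pe_subfield_eq_top (IntermediateField.sup_def _ _) S (fun c => ?_) fun x hx h => ?_
  · have := h1 (algebraMap L _ c)
    rwa [AlgHom.commutes] at this
  · rcases hx with hx | hx
    · obtain ⟨y, hy, rfl⟩ := hx
      have hy' : y ∈ laurentBaseChange L (modularFunctionFieldFull (A * q)) :=
        ss2_dp_mem_lbc L (A * q) hy
      have := h2 ⟨y, hy'⟩
      have e : ss2_dp_iota L (A * q) ⟨y, hy'⟩ = ⟨lg_phi L y, h⟩ := Subtype.ext rfl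
      rwa [e] at this
    · have hx' : x ∈ lg_E L A := lg_K_le_E L A hx
      have := h1 ⟨x, hx'⟩
      have e : IntermediateField.inclusion (ssm_al_E_le L A q) ⟨x, hx'⟩ = ⟨x, h⟩ :=
        Subtype.ext rfl
      rwa [e] at this

/-- **the norm to the lower level commutes with the passage to the Legendre cover** (`q ∣ A`,
`q` odd). -/
theorem m59ei_cover_norm (hq : q.Prime) (hq2 : ¬ 2 ∣ q) (hqA : q ∣ A)
    (y : laurentBaseChange L (modularFunctionFieldFull (A * q))) :
    s35pe_normAlong (IntermediateField.inclusion (ssm_al_E_le L A q)) (ss2_dp_iota L (A * q) y) =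
      ss2_dp_iota L A (s35pe_normAlong (heckeAlphaBar L A q) y) := by
  haveI : Fact q.Prime := ⟨hq⟩
  have hpos : 0 < finrankAlong L (heckeAlphaBar L A q) := by
    rw [s36d_finrankAlong_alpha L A q hq hqA]
    exact hq.pos
  have hdeg : finrankAlong L (IntermediateField.inclusion (ssm_al_E_le L A q)) =
      finrankAlong L (heckeAlphaBar L A q) := by
    rw [s36d_finrankAlong_alpha L A q hq hqA, s35pe_finrankAlong_inclusion,
      s36pe_relfinrank_E L A q hq hq2 hqA]
  exact s35pe_normAlong_baseChange (heckeAlphaBar L A q)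
    (IntermediateField.inclusion (ssm_al_E_le L A q)) (ss2_dp_iota L A).toRingHom
    (ss2_dp_iota L (A * q)).toRingHom (fun x => ss2_dp_iota_alpha L A q x) hpos hdeg
    (fun S h1 h2 => m59ei_cover_gen L A q S h1 h2) y

end Cover

end Fermat.Agent.M59
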