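/-
M59 / Sink B / cell (G1) [EIS] (helper18), part 6: THE CONCRETE LEGENDRE TOWER, PACKED.
Prefix `m59ei_`.

Over a base `(L, O)` of [NF2-CTX] with a third valuation `VC` (package `s36asm_Third`):

* `m59ei_val_eq_one_iff` : `V.valuation x = 1 ↔ x ∈ V ∧ x⁻¹ ∈ V` (`x ≠ 0`);
* `m59ei_VA_unit_iff`    : `x ≠ 0` is a unit of the Gauss ring `VA = s36i_VA` iff its `q`-expansion is a
  Gauss unit (`m59ei_GU`);
* `m59ei_tower_pack`     : everything `m59ei_vert` (Eis/Abs.lean) needs from helper11's tower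
  `s36asm_tower_of_third`, as ONE existential statement in the abstract vocabulary of
  `S36/Abel3/Vert.lean` (three order functions, `N1 = s36c_normIncl`), so that no `letI` block is
  needed at the call site.
-/
import Mathlib
import Fermat.Agent.M59.SinkB.Eis.Gauss
import Fermat.Agent.S36.Model.AsmLegFinal
import Fermat.Agent.S36.ATower.Pack

set_option autoImplicit false
set_option linter.unusedSectionVars false
set_option linter.unusedVariables false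
set_option linter.style.haveILetI false
set_option synthInstance.maxHeartbeats 400000
set_option maxHeartbeats 1000000

noncomputable section

open ModularCurve AlgebraicCurve IntermediateField IsLocalRing
open Fermat.Agent.JT3 Fermat.Agent.SS Fermat.Agent.S35 Fermat.Agent.S36

namespace Fermat.Agent.M59

section Val

variable {E : Type*} [Field E]

theorem m59ei_val_eq_one_iff (V : ValuationSubring E) {x : E} (hx : x ≠ 0) :
    V.valuation x = 1 ↔ x ∈ V ∧ x⁻¹ ∈ V := by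
  have hv : 0 < V.valuation x := zero_lt_iff.mpr ((Valuation.ne_zero_iff _).mpr hx)
  constructor
  · intro h
    refine ⟨(V.valuation_le_one_iff x).1 h.le, (V.valuation_le_one_iff _).1 ?_⟩
    rw [map_inv₀, h, inv_one]
  · rintro ⟨h1, h2⟩
    have h1' := (V.valuation_le_one_iff x).2 h1
    have h2' := (V.valuation_le_one_iff _).2 h2
    rw [map_inv₀, inv_le_one₀ hv] at h2'
    exact le_antisymm h1' h2'

end Val

section Legendre

variable {L : Type*} [Field L] [CharZero L] [Algebra L (AlgebraicClosure ℚ)]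
  (O : ValuationSubring L) [IsDiscreteValuationRing O] {π : O} (hπ : Irreducible π)
variable (N' q : ℕ) [NeZero N'] [NeZero q] [hq : Fact q.Prime] [CharP (ResidueField O) q]
  (hq2 : ¬ 2 ∣ q) (hqN' : ¬ q ∣ N')

/-- units of the Gauss ring `VA` = Gauss units. -/
theorem m59ei_VA_unit_iff (N : ℕ) [NeZero N] {x : ↥(lg_E L (N * q))} (hx : x ≠ 0) :
    (s36i_VA O hπ N q).valuation x = 1 ↔ m59ei_GU ↥O L (x : LaurentSeries L) := by
  rw [m59ei_val_eq_one_iff _ hx]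
  constructor
  · rintro ⟨h1, h2⟩
    refine ⟨h1, ?_⟩
    have : gq_IsBdd ↥O L ((x⁻¹ : ↥(lg_E L (N * q))) : LaurentSeries L) := h2
    rwa [IntermediateField.coe_inv] at this
  · rintro ⟨h1, h2⟩
    refine ⟨h1, ?_⟩
    show gq_IsBdd ↥O L ((x⁻¹ : ↥(lg_E L (N * q))) : LaurentSeries L)
    rwa [IntermediateField.coe_inv]

/-- **the tower package** for `m59ei_vert`. -/
theorem m59ei_tower_pack (u : ↥O) (hu : IsUnit u) (hqu : ((q : ℕ) : ↥O) = π * u)
    {VC : ValuationSubring ↥(lg_E L (N' * q * q))} (T3 : s36asm_Third O hπ N' q hq2 hqN' VC) :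
    ∃ (ordA ordB ordC : ↥(lg_E L (N' * q * q)) → ℤ) (zC : ↥(lg_E L (N' * q * q))),
      s36a_Ord (s36i_VA O hπ (N' * q) q) ordA ∧ s36a_Ord (s36i_VB O hπ N' q hq2 hqN') ordB ∧
      s36a_Ord VC ordC ∧
      (∀ c : L, algebraMap L ↥(lg_E L (N' * q * q)) c ∈ s36i_VA O hπ (N' * q) q ↔ c ∈ O) ∧
      (∀ c : L, algebraMap L ↥(lg_E L (N' * q * q)) c ∈ s36i_VB O hπ N' q hq2 hqN' ↔ c ∈ O) ∧
      (∀ c : L, algebraMap L ↥(lg_E L (N' * q * q)) c ∈ VC ↔ c ∈ O) ∧
      ((π : ↥O) : L) ≠ 0 ∧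
      ordA (algebraMap L ↥(lg_E L (N' * q * q)) ((π : ↥O) : L)) = 1 ∧
      ordB (algebraMap L ↥(lg_E L (N' * q * q)) ((π : ↥O) : L)) = 1 ∧
      ordC (algebraMap L ↥(lg_E L (N' * q * q)) ((π : ↥O) : L)) = (q : ℤ) - 1 ∧
      zC ≠ 0 ∧ ordC zC = 1 ∧
      (∀ c : L, c ≠ 0 → ∃ (j : ℤ) (u : L), O.valuation u = 1 ∧ c = ((π : ↥O) : L) ^ j * u) ∧
      (∀ x : ↥(lg_E L (N' * q * q)), x ≠ 0 →
        ordA (s36c_normIncl (ssm_al_E_le L (N' * q) q) x) = ordA x + ordC x) ∧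
      (∀ x : ↥(lg_E L (N' * q * q)), x ≠ 0 →
        ordB (s36c_normIncl (ssm_al_E_le L (N' * q) q) x) = (q : ℤ) * ordB x) ∧
      (∀ t1 t2 t3 : ↥(lg_E L (N' * q * q)), t1 ≠ 0 → t2 ≠ 0 → t3 ≠ 0 →
        ∃ h : ↥(lg_E L (N' * q * q)), h ≠ 0 ∧
          (s36i_VA O hπ (N' * q) q).valuation h = (s36i_VA O hπ (N' * q) q).valuation t1 ∧
          (s36i_VB O hπ N' q hq2 hqN').valuation h =
            (s36i_VB O hπ N' q hq2 hqN').valuation t2 ∧
          VC.valuation h = VC.valuation t3) := by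
  have T := s36asm_tower_of_third O hπ N' q hq2 hqN' u hu hqu T3
  letI := ssm_gi_algebra (ssm_al_E_le L (N' * q) q)
  letI := ssm_gi_algebra (ssm_al_E_beta_le L (N' * q) q hq2)
  letI := ssm_gi_algebraV (ssm_al_E_le L (N' * q) q) (ssm_gl_V1 O hπ N' q)
  letI := ssm_gi_algebraV (ssm_al_E_le L (N' * q) q) (s36i_VV O hπ N' q hq2 hqN')
  letI := ssm_gi_algebraV (ssm_al_E_beta_le L (N' * q) q hq2) (s36i_RU O hπ N' q hq2 hqN')
  letI := ssm_gi_algebraV (ssm_al_E_beta_le L (N' * q) q hq2) (s36i_RG O hπ (N' * q) q hq2)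
  haveI := ssm_gi_isScalarTower (ssm_al_E_le L (N' * q) q) (ssm_gl_V1 O hπ N' q)
  haveI := ssm_gi_isScalarTower (ssm_al_E_le L (N' * q) q) (s36i_VV O hπ N' q hq2 hqN')
  haveI := ssm_gi_isScalarTower (ssm_al_E_beta_le L (N' * q) q hq2) (s36i_RU O hπ N' q hq2 hqN')
  haveI := ssm_gi_isScalarTower (ssm_al_E_beta_le L (N' * q) q hq2)
    (s36i_RG O hπ (N' * q) q hq2)
  haveI := ssm_gi_isScalarTower_base (ssm_al_E_le L (N' * q) q)
  haveI := ssm_gi_isScalarTower_base (ssm_al_E_beta_le L (N' * q) q hq2)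
  have hT : s36at_Tower (K1 := ↥(lg_E L (N' * q)))
      (K2 := ↥((lg_E L (N' * q)).map (qExpandAlgHomC L q)))
      O (π : L) q (s36i_VA O hπ (N' * q) q) (s36i_VB O hπ N' q hq2 hqN') VC
      _ _ _ _ _ _ _ _ _ _ := T
  have hq1 : q - 1 + 1 = q := Nat.sub_add_cancel hq.out.one_le
  haveI : FiniteDimensional ↥(lg_E L (N' * q)) ↥(lg_E L (N' * q * q)) :=
    ssm_gi_finiteDimensional (n := q - 1) (by rw [hq1]; exact hT.side1.finrank_eq)
  haveI : FiniteDimensional ↥((lg_E L (N' * q)).map (qExpandAlgHomC L q))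
      ↥(lg_E L (N' * q * q)) :=
    ssm_gi_finiteDimensional (n := q - 1) (by rw [hq1]; exact hT.side2.finrank_eq)
  haveI : Algebra.IsSeparable ↥(lg_E L (N' * q)) ↥(lg_E L (N' * q * q)) := ssm_gi_isSeparable
  haveI : Algebra.IsSeparable ↥((lg_E L (N' * q)).map (qExpandAlgHomC L q))
      ↥(lg_E L (N' * q * q)) := ssm_gi_isSeparable
  refine ⟨_, _, _, _, hT.hoA, hT.hoB, hT.hoC, hT.hVA, hT.hVB, hT.hVC, hT.hϖ0, hT.hϖA, hT.hϖB,
    ?_, hT.hzC0, hT.hzC, hT.hϖO, hT.hN1A, hT.hN1B, ?_⟩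
  · rw [hT.hϖC, mul_one]
  · intro t1 t2 t3 ht1 ht2 ht3
    obtain ⟨x, hx1, hx2, hx3⟩ := hT.hWA3 t1 t2 t3 t1⁻¹ t2⁻¹ t3⁻¹
    have e1 := s36wa_val_eq (s36i_VA O hπ (N' * q) q) ht1 hx1
    refine ⟨x, ?_, e1, s36wa_val_eq (s36i_VB O hπ N' q hq2 hqN') ht2 hx2,
      s36wa_val_eq VC ht3 hx3⟩
    rintro rfl
    rw [map_zero] at e1
    exact (Valuation.ne_zero_iff _).2 ht1 e1.symm

end Legendre

end Fermat.Agent.M59
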