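/-
M59 / Sink B / cell (G1) [EIS] (helper18), part 1: THE ABSTRACT VERTICAL CORE.  Prefix `m59ei_`.

Vocabulary of `S36/Abel3/Vert.lean` (`s36a_Ord`): `E` a field over the constants `L`, `O` a
valuation ring of `L` with uniformiser `ϖ`, three valuation rings `VA VB VC` of `E` over `O` with
ℤ-valued order functions `ordA ordB ordC`, `ordA ϖ = ordB ϖ = 1`, `ordC ϖ = q - 1`, `ordC zC = 1`;
`N1 : E →* E` the norm to the lower level with
  `ordA (N1 x) = ordA x + ordC x`,  `ordB (N1 x) = q * ordB x`.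

* `m59ei_int_core` : the integer arithmetic: `k a = i + m tA`, `k c = (q - 1) i + m tC`,
  `a + c - q b = m s₁`, `k` and `q` prime to `m`  ⟹  `(a, b, c) ≡ t (1, 1, q - 1)` mod `m`;
* `m59ei_vert`     : if `N1 g = c₁ r₁ ^ m` and the Hecke relation gives
  `k * ordX g = ordX (a') + m * t_X` for `X = A, C` (`a' ∈ Lˣ` a constant, `k` prime to `m`), then
  `g * ϖ ^ j * (h ^ m)⁻¹` is a unit at `VA`, `VB`, `VC` for suitable `j`, `h`.
  (Twin of `s36a_vert`, with `g ^ (q + 1)` replaced by `g`: the second norm relation is replaced by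
  the Eisenstein-type relation at one good prime.)
-/
import Mathlib
import Fermat.Agent.S36.Abel3.Vert

set_option autoImplicit false
set_option linter.unusedSectionVars false
set_option linter.unusedVariables false

namespace Fermat.Agent.M59

open Fermat.Agent.S36

/-- the integer arithmetic of (G1). -/
theorem m59ei_int_core (k m q a b c i tA tC s1 : ℤ) (hk : IsCoprime k m) (hq : IsCoprime q m)
    (hA : k * a = i + m * tA) (hC : k * c = (q - 1) * i + m * tC)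
    (hN : a + c - q * b = m * s1) :
    ∃ t a₁ b₁ c₁ : ℤ, a = t + m * a₁ ∧ b = t + m * b₁ ∧ c = (q - 1) * t + m * c₁ := by
  obtain ⟨x, y, hxy⟩ := hk
  obtain ⟨u, v, huv⟩ := hq
  have ha : a = x * i + m * (x * tA + y * a) := by linear_combination x * hA - a * hxy
  have hc : c = (q - 1) * (x * i) + m * (x * tC + y * c) := by
    linear_combination x * hC - c * hxy
  have hb : q * b = q * (x * i) + m * ((x * tA + y * a) + (x * tC + y * c) - s1) := by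
    linear_combination ha + hc - hN
  refine ⟨x * i, x * tA + y * a,
    -(v * (x * i)) + u * ((x * tA + y * a) + (x * tC + y * c) - s1) + v * b,
    x * tC + y * c, ha, ?_, hc⟩
  linear_combination u * hb - (b - x * i) * huv

section Vert

variable {L E : Type*} [Field L] [Field E] [Algebra L E]

/-- **(G1), abstract vertical core.** -/
theorem m59ei_vert (O : ValuationSubring L) (VA VB VC : ValuationSubring E) (N1 : E →* E)
    (q m : ℕ) (hm : 1 ≤ m) (hqm : Nat.Coprime q m) (ordA ordB ordC : E → ℤ)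
    (hoA : s36a_Ord VA ordA) (hoB : s36a_Ord VB ordB) (hoC : s36a_Ord VC ordC)
    (hVA : ∀ c : L, algebraMap L E c ∈ VA ↔ c ∈ O)
    (hVB : ∀ c : L, algebraMap L E c ∈ VB ↔ c ∈ O)
    (hVC : ∀ c : L, algebraMap L E c ∈ VC ↔ c ∈ O)
    (ϖ : L) (hϖ0 : ϖ ≠ 0)
    (hϖA : ordA (algebraMap L E ϖ) = 1) (hϖB : ordB (algebraMap L E ϖ) = 1)
    (hϖC : ordC (algebraMap L E ϖ) = (q : ℤ) - 1)
    (zC : E) (hzC0 : zC ≠ 0) (hzC : ordC zC = 1)
    (hϖO : ∀ c : L, c ≠ 0 → ∃ (j : ℤ) (u : L), O.valuation u = 1 ∧ c = ϖ ^ j * u)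
    (hN1A : ∀ x : E, x ≠ 0 → ordA (N1 x) = ordA x + ordC x)
    (hN1B : ∀ x : E, x ≠ 0 → ordB (N1 x) = (q : ℤ) * ordB x)
    (hWAv : ∀ t1 t2 t3 : E, t1 ≠ 0 → t2 ≠ 0 → t3 ≠ 0 → ∃ h : E, h ≠ 0 ∧
      VA.valuation h = VA.valuation t1 ∧ VB.valuation h = VB.valuation t2 ∧
      VC.valuation h = VC.valuation t3)
    (g : E) (hg : g ≠ 0) (c1 : L) (hc1 : c1 ≠ 0) (r1 : E)
    (h1 : N1 g = algebraMap L E c1 * r1 ^ m)
    (k : ℤ) (hk : IsCoprime k (m : ℤ)) (a' : L) (ha' : a' ≠ 0) (tA tC : ℤ)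
    (hTA : k * ordA g = ordA (algebraMap L E a') + m * tA)
    (hTC : k * ordC g = ordC (algebraMap L E a') + m * tC) :
    ∃ (j : ℤ) (h : E), h ≠ 0 ∧
      VA.valuation (g * algebraMap L E ϖ ^ j * (h ^ m)⁻¹) = 1 ∧
      VB.valuation (g * algebraMap L E ϖ ^ j * (h ^ m)⁻¹) = 1 ∧
      VC.valuation (g * algebraMap L E ϖ ^ j * (h ^ m)⁻¹) = 1 := by
  have hϖE : algebraMap L E ϖ ≠ 0 := (map_ne_zero _).2 hϖ0
  have hc1E : algebraMap L E c1 ≠ 0 := (map_ne_zero _).2 hc1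
  have hN1g : N1 g ≠ 0 := s36a_map_ne_zero N1 hg
  have hr1 : r1 ≠ 0 := by
    rintro rfl
    rw [zero_pow (by omega), mul_zero] at h1
    exact hN1g h1
  -- orders of constants
  have hconst : ∀ c : L, c ≠ 0 → ∃ i : ℤ, ordA (algebraMap L E c) = i ∧
      ordB (algebraMap L E c) = i ∧ ordC (algebraMap L E c) = ((q : ℤ) - 1) * i := by
    intro c hc
    obtain ⟨j, u, hu, hcu⟩ := hϖO c hc
    have hu0 : u ≠ 0 := by
      rintro rfl
      rw [map_zero] at hu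
      exact zero_ne_one hu
    have huE : algebraMap L E u ≠ 0 := (map_ne_zero _).2 hu0
    have hzE : algebraMap L E ϖ ^ j ≠ 0 := zpow_ne_zero _ hϖE
    refine ⟨j, ?_, ?_, ?_⟩
    · rw [hcu, map_mul, map_zpow₀, hoA.mul _ _ hzE huE, hoA.zpow hϖE, hϖA,
        (hoA.unit _ huE).2 (s36a_const_unit O VA hVA hu)]
      ring
    · rw [hcu, map_mul, map_zpow₀, hoB.mul _ _ hzE huE, hoB.zpow hϖE, hϖB,
        (hoB.unit _ huE).2 (s36a_const_unit O VB hVB hu)]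
      ring
    · rw [hcu, map_mul, map_zpow₀, hoC.mul _ _ hzE huE, hoC.zpow hϖE, hϖC,
        (hoC.unit _ huE).2 (s36a_const_unit O VC hVC hu)]
      ring
  obtain ⟨i, hiA, -, hiC⟩ := hconst a' ha'
  obtain ⟨i1, hi1A, hi1B, -⟩ := hconst c1 hc1
  -- the norm relation
  have e1A : ordA g + ordC g = i1 + m * ordA r1 := by
    have := hN1A g hg
    rw [h1, hoA.mul _ _ hc1E (pow_ne_zero m hr1), hoA.pow hr1, hi1A] at this
    linarith
  have e1B : (q : ℤ) * ordB g = i1 + m * ordB r1 := by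
    have := hN1B g hg
    rw [h1, hoB.mul _ _ hc1E (pow_ne_zero m hr1), hoB.pow hr1, hi1B] at this
    linarith
  have hN : ordA g + ordC g - (q : ℤ) * ordB g = (m : ℤ) * (ordA r1 - ordB r1) := by
    linarith
  have hqm' : IsCoprime (q : ℤ) (m : ℤ) := Nat.isCoprime_iff_coprime.2 hqm
  obtain ⟨t, a₁, b₁, c₁, hea, heb, hec⟩ := m59ei_int_core k m q (ordA g) (ordB g) (ordC g) i tA tC
    (ordA r1 - ordB r1) hk hqm' (by rw [hTA, hiA]) (by rw [hTC, hiC]) hN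
  -- the correcting element
  set tA' : E := algebraMap L E ϖ ^ a₁ with htA'
  set tB' : E := algebraMap L E ϖ ^ b₁ with htB'
  set tC' : E := zC ^ c₁ with htC'
  have htA0 : tA' ≠ 0 := zpow_ne_zero _ hϖE
  have htB0 : tB' ≠ 0 := zpow_ne_zero _ hϖE
  have htC0 : tC' ≠ 0 := zpow_ne_zero _ hzC0
  obtain ⟨h, hh0, hhA, hhB, hhC⟩ := hWAv tA' tB' tC' htA0 htB0 htC0
  have ohA : ordA h = a₁ := by
    rw [hoA.eq_of_val_eq hh0 htA0 hhA, htA', hoA.zpow hϖE, hϖA, mul_one]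
  have ohB : ordB h = b₁ := by
    rw [hoB.eq_of_val_eq hh0 htB0 hhB, htB', hoB.zpow hϖE, hϖB, mul_one]
  have ohC : ordC h = c₁ := by
    rw [hoC.eq_of_val_eq hh0 htC0 hhC, htC', hoC.zpow hzC0, hzC, mul_one]
  have hzj : algebraMap L E ϖ ^ (-t) ≠ 0 := zpow_ne_zero _ hϖE
  have hhm : (h ^ m)⁻¹ ≠ 0 := inv_ne_zero (pow_ne_zero _ hh0)
  have hg1 : g * algebraMap L E ϖ ^ (-t) * (h ^ m)⁻¹ ≠ 0 :=
    mul_ne_zero (mul_ne_zero hg hzj) hhm
  refine ⟨-t, h, hh0, ?_, ?_, ?_⟩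
  · rw [← hoA.unit _ hg1, hoA.mul _ _ (mul_ne_zero hg hzj) hhm, hoA.mul _ _ hg hzj,
      hoA.zpow hϖE, hoA.inv (pow_ne_zero _ hh0), hoA.pow hh0, ohA, hϖA, hea]
    ring
  · rw [← hoB.unit _ hg1, hoB.mul _ _ (mul_ne_zero hg hzj) hhm, hoB.mul _ _ hg hzj,
      hoB.zpow hϖE, hoB.inv (pow_ne_zero _ hh0), hoB.pow hh0, ohB, hϖB, heb]
    ring
  · rw [← hoC.unit _ hg1, hoC.mul _ _ (mul_ne_zero hg hzj) hhm, hoC.mul _ _ hg hzj,
      hoC.zpow hϖE, hoC.inv (pow_ne_zero _ hh0), hoC.pow hh0, ohC, hϖC, hec]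
    ring

end Vert

end Fermat.Agent.M59
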