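/-
M59 / Sink B / cell (G1) [EIS] (helper18), part 8: THE VERTICAL NORMAL FORM.  Prefix `m59ei_`.

* `m59ei_vert0_of_rel` : over a base `(L, O)` of [NF2-CTX] (`q = π u`), for `g1 ∈ F_{N' q q}(L)ˣ` with
  the `α`-norm relation `N_{α_q} g1 = a₁ s₁^p` and ONE Hecke relation
  `T_ℓ g1 = a' · s^p · g1^a` at a prime `ℓ ∤ N' q q` with `ζ_ℓ ∈ L`, `ℓ + 1 - a` prime to `p`,
  `p` prime to `q`: `m59sb_Vert0At O hπ N' q hq2 hqN' p (ι g1)`.
  [(a, b, c) := (ordA, ordB, ordC)(ι g1): the norm relation gives `a + c ≡ q b`; RULE A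
  (`m59ei_ordA_hecke` at level `N' q q`) gives `(ℓ + 1 - a_ℓ) a ≡ ord(a')`; RULE C (RULE A at level
  `N' q` + `hN1A` + the commutations `m59ei_norm_comm`, `m59ei_cover_norm`) gives
  `(ℓ + 1 - a_ℓ) c ≡ (q - 1) ord(a')`; conclude by `m59ei_vert`.]
* `m59ei_eis_stmt : m59sb_Eis_stmt` = (G1) [EIS] of M59/SinkB/G12/Seams.lean, with `T := {ζ_ℓ₀}`.
-/
import Mathlib
import Fermat.Agent.M59.SinkB.Eis.Abs
import Fermat.Agent.M59.SinkB.Eis.OrdA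
import Fermat.Agent.M59.SinkB.Eis.NormComm
import Fermat.Agent.M59.SinkB.G12.Seams

set_option autoImplicit false
set_option linter.unusedSectionVars false
set_option linter.unusedVariables false
set_option linter.style.haveILetI false
set_option synthInstance.maxHeartbeats 400000
set_option maxHeartbeats 1000000

noncomputable section

open ModularCurve AlgebraicCurve IntermediateField IsLocalRing
open Fermat.Agent.JT3 Fermat.Agent.SS Fermat.Agent.S35 Fermat.Agent.S36 Fermat.Agent.S24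
  Fermat.Agent.S44 Fermat.Agent.SS2

namespace Fermat.Agent.M59

local notation "Qb" => AlgebraicClosure ℚ

section Incl

variable (L : Type) [Field L] [Algebra ℚ L] [CharZero L] [Algebra L Qb] [IsScalarTower ℚ L Qb]

/-- the norm to `E₁` followed by the inclusion, on the image of `ι`. -/
theorem m59ei_normIncl_iota (N' q : ℕ) [hq : Fact q.Prime]
    [NeZero (N' * q)] [NeZero (N' * q * q)] (hq2 : ¬ 2 ∣ q)
    (y : laurentBaseChange L (modularFunctionFieldFull (N' * q * q))) :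
    s36c_normIncl (ssm_al_E_le L (N' * q) q) (ss2_dp_iota L (N' * q * q) y) =
      IntermediateField.inclusion (ssm_al_E_le L (N' * q) q)
        (ss2_dp_iota L (N' * q) (s35pe_normAlong (heckeAlphaBar L (N' * q) q) y)) := by
  rw [← m59ei_cover_norm L (N' * q) q hq.out hq2 (Dvd.intro_left N' rfl) y]
  rfl

end Incl

section Rel

variable {L : Type} [Field L] [Algebra ℚ L] [CharZero L] [Algebra L Qb] [IsScalarTower ℚ L Qb]
  (O : ValuationSubring L) [IsDiscreteValuationRing O] {π : O} (hπ : Irreducible π)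
variable (N' q : ℕ) [NeZero N'] [NeZero q] [hq : Fact q.Prime] [CharP (ResidueField O) q]
  [NeZero (N' * q)] [NeZero (N' * q * q)] (hq2 : ¬ 2 ∣ q) (hqN' : ¬ q ∣ N')

/-- **(G1), over a base `(L, O)`, from the two relations.** -/
theorem m59ei_vert0_of_rel (u : ↥O) (hu : IsUnit u) (hqu : ((q : ℕ) : ↥O) = π * u)
    (p : ℕ) (hp1 : 1 ≤ p) (hqp : Nat.Coprime q p)
    (ℓ : ℕ) [NeZero ℓ] (hℓ : ℓ.Prime) (hℓN : ¬ ℓ ∣ N' * q * q)
    (ζ : Lˣ) (hζ : IsPrimitiveRoot ζ ℓ) (a : ℤ) (hk : IsCoprime ((ℓ : ℤ) + 1 - a) (p : ℤ))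
    (g1 : laurentBaseChange L (modularFunctionFieldFull (N' * q * q))) (hg1 : g1 ≠ 0)
    (hα : ∃ (a₁ : L) (s₁ : laurentBaseChange L (modularFunctionFieldFull (N' * q))),
      s35pe_normAlong (heckeAlphaBar L (N' * q) q) g1 =
        algebraMap L (laurentBaseChange L (modularFunctionFieldFull (N' * q))) a₁ * s₁ ^ p)
    (hrel : ∃ (a' : L) (s : laurentBaseChange L (modularFunctionFieldFull (N' * q * q))),
      a' ≠ 0 ∧ s ≠ 0 ∧ m59ei_T L (N' * q * q) ℓ g1 =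
        algebraMap L (laurentBaseChange L (modularFunctionFieldFull (N' * q * q))) a' * s ^ p *
          g1 ^ a) :
    m59sb_Vert0At O hπ N' q hq2 hqN' p (ss2_dp_iota L (N' * q * q) g1) := by
  intro VC T3
  obtain ⟨ordA, ordB, ordC, zC, hoA, hoB, hoC, hVA, hVB, hVC, hϖ0, hϖA, hϖB, hϖC, hzC0, hzC, hϖO,
    hN1A, hN1B, hWAv⟩ := m59ei_tower_pack O hπ N' q hq2 hqN' u hu hqu T3
  obtain ⟨a₁, s₁, hα⟩ := hα
  obtain ⟨a', s, ha', hs, hrel⟩ := hrel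
  have hqA : q ∣ N' * q := Dvd.intro_left N' rfl
  have hℓN1 : ¬ ℓ ∣ N' * q := fun h => hℓN (h.mul_right q)
  set ι₂ := ss2_dp_iota L (N' * q * q) with hι₂
  set ι₁ := ss2_dp_iota L (N' * q) with hι₁
  set N1 := s36c_normIncl (ssm_al_E_le L (N' * q) q) with hN1
  set g := ι₂ g1 with hg
  have hg0 : g ≠ 0 := by rw [hg, Ne, map_eq_zero]; exact hg1
  set Tg := m59ei_T L (N' * q * q) ℓ g1 with hTg
  have hTg0 : Tg ≠ 0 := m59ei_T_ne_zero L (N' * q * q) ℓ hℓ hℓN hg1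
  have hιTg0 : ι₂ Tg ≠ 0 := by rw [Ne, map_eq_zero]; exact hTg0
  -- the norm of `g1`
  set n := s35pe_normAlong (heckeAlphaBar L (N' * q) q) g1 with hn
  have hn0 : n ≠ 0 := by
    rw [hn]
    refine s36d_normAlong_ne_zero _ ?_ hg1
    rw [s36d_finrankAlong_alpha L (N' * q) q hq.out hqA]
    exact hq.out.pos
  have hN1g : N1 g = IntermediateField.inclusion (ssm_al_E_le L (N' * q) q) (ι₁ n) :=
    m59ei_normIncl_iota L N' q hq2 g1
  have hN1Tg : N1 (ι₂ Tg) = IntermediateField.inclusion (ssm_al_E_le L (N' * q) q)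
      (ι₁ (m59ei_T L (N' * q) ℓ n)) := by
    rw [hN1, m59ei_normIncl_iota L N' q hq2 Tg, hTg,
      m59ei_norm_comm L (N' * q) q ℓ hq.out hqA hℓ hℓN g1]
  -- RULE A at the two levels
  have hRA : ordA (ι₂ Tg) = ((ℓ : ℤ) + 1) * ordA g :=
    m59ei_ordA_hecke O hπ (N' * q) q ℓ hℓ ordA hoA hϖ0 hϖA (N' * q * q) hℓN ζ hζ g1 hg1 g
      (ι₂ Tg) (ss2_dp_iota_coe L (N' * q * q) g1) (ss2_dp_iota_coe L (N' * q * q) Tg)
  have hRA1 : ordA (N1 (ι₂ Tg)) = ((ℓ : ℤ) + 1) * ordA (N1 g) := by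
    rw [hN1Tg, hN1g]
    exact m59ei_ordA_hecke O hπ (N' * q) q ℓ hℓ ordA hoA hϖ0 hϖA (N' * q) hℓN1 ζ hζ n hn0 _ _
      (ss2_dp_iota_coe L (N' * q) n) (ss2_dp_iota_coe L (N' * q) (m59ei_T L (N' * q) ℓ n))
  -- RULE C
  have hRC : ordC (ι₂ Tg) = ((ℓ : ℤ) + 1) * ordC g := by
    have e1 := hN1A g hg0
    have e2 := hN1A (ι₂ Tg) hιTg0
    rw [hRA1, e1, hRA] at e2
    linarith
  -- the Hecke relation in `E₂`
  have hsE : ι₂ s ≠ 0 := by rw [Ne, map_eq_zero]; exact hs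
  have ha'E : algebraMap L ↥(lg_E L (N' * q * q)) a' ≠ 0 := (map_ne_zero _).2 ha'
  have hrelE : ι₂ Tg = algebraMap L ↥(lg_E L (N' * q * q)) a' * ι₂ s ^ p * g ^ a := by
    rw [hrel, map_mul, map_mul, map_pow, map_zpow₀, AlgHom.commutes]
  have hga : g ^ a ≠ 0 := zpow_ne_zero _ hg0
  have hsp : ι₂ s ^ p ≠ 0 := pow_ne_zero _ hsE
  have hTA : ((ℓ : ℤ) + 1 - a) * ordA g =
      ordA (algebraMap L ↥(lg_E L (N' * q * q)) a') + (p : ℤ) * ordA (ι₂ s) := by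
    have e := hRA
    rw [hrelE, hoA.mul _ _ (mul_ne_zero ha'E hsp) hga, hoA.mul _ _ ha'E hsp, hoA.pow hsE,
      hoA.zpow hg0] at e
    linarith
  have hTC : ((ℓ : ℤ) + 1 - a) * ordC g =
      ordC (algebraMap L ↥(lg_E L (N' * q * q)) a') + (p : ℤ) * ordC (ι₂ s) := by
    have e := hRC
    rw [hrelE, hoC.mul _ _ (mul_ne_zero ha'E hsp) hga, hoC.mul _ _ ha'E hsp, hoC.pow hsE,
      hoC.zpow hg0] at e
    linarith
  -- the norm relation in `E₂`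
  have ha₁ : a₁ ≠ 0 := by
    rintro rfl
    rw [map_zero, zero_mul] at hα
    exact hn0 hα
  have h1 : N1 g = algebraMap L ↥(lg_E L (N' * q * q)) a₁ *
      (IntermediateField.inclusion (ssm_al_E_le L (N' * q) q) (ι₁ s₁)) ^ p := by
    rw [hN1g, hα, map_mul, map_pow, AlgHom.commutes, map_mul, map_pow, AlgHom.commutes]
  have key := m59ei_vert O (s36i_VA O hπ (N' * q) q) (s36i_VB O hπ N' q hq2 hqN') VC N1 q p hp1 hqp
    ordA ordB ordC hoA hoB hoC hVA hVB hVC ((π : ↥O) : L) hϖ0 hϖA hϖB hϖC zC hzC0 hzC hϖO hN1A hN1B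
    hWAv g hg0 a₁ ha₁ (IntermediateField.inclusion (ssm_al_E_le L (N' * q) q) (ι₁ s₁)) h1
    ((ℓ : ℤ) + 1 - a) hk a' ha' (ordA (ι₂ s)) (ordC (ι₂ s)) hTA hTC
  obtain ⟨j, h, hh, hA, hB, hC⟩ := key
  refine ⟨j, h, hh, ?_⟩
  unfold m59sb_Unit3
  refine ⟨?_, ?_, ?_⟩
  · exact hA
  · exact hB
  · exact hC

end Rel

section Stmt

/-- **(G1) [EIS]** of `M59/SinkB/G12/Seams.lean`, with `T := {ζ_ℓ₀}`. -/
theorem m59ei_eis_stmt : m59sb_Eis_stmt := by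
  intro N' q p _ _ hqF _ _ hpF hp2 hqp hq2 hqN' h4 A hA S a hpS hℓ₀ z hz0 hpz hIz heig hP1 hP2
  obtain ⟨ℓ₀, hℓ₀, hℓ₀N, hℓ₀S, hℓ₀a⟩ := hℓ₀
  haveI : NeZero ℓ₀ := ⟨hℓ₀.ne_zero⟩
  obtain ⟨ζ0, hζ0⟩ := HasEnoughRootsOfUnity.exists_primitiveRoot Qb ℓ₀
  have hqℓ₀ : ¬ q ∣ ℓ₀ := by
    intro h
    have e : q = ℓ₀ := (Nat.prime_dvd_prime_iff_eq hqF.out hℓ₀).1 h
    exact hℓ₀N (e ▸ Dvd.intro_left (N' * q) rfl)
  refine ⟨{ζ0}, ?_, ?_⟩
  · intro t ht s hs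
    rw [Finset.mem_singleton] at ht
    subst ht
    exact s35d_root_fixed A q hA hqℓ₀ hζ0.pow_eq_one hs
  · intro L1 hL1 hT g1 hmod _ _ hπ
    obtain ⟨hg1, ⟨c₀, r₀, hc₀, hr₀, hRep⟩, hord, hα, hβ⟩ := hmod
    have hζL : ζ0 ∈ L1 := hT (by simp)
    have hζ1 : IsPrimitiveRoot (⟨ζ0, hζL⟩ : ↥L1) ℓ₀ :=
      IsPrimitiveRoot.of_map_of_injective (f := algebraMap ↥L1 Qb) hζ0
        (algebraMap ↥L1 Qb).injective
    have hu1 : IsUnit (⟨ζ0, hζL⟩ : ↥L1) := hζ1.isUnit hℓ₀.ne_zero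
    have hζu : IsPrimitiveRoot hu1.unit ℓ₀ := by
      rw [← IsPrimitiveRoot.coe_units_iff]
      exact hζ1
    have hrel := m59ei_eigenRel (N' * q * q) p ℓ₀ ↥L1 hpF.out.ne_zero hℓ₀ hℓ₀N z (a ℓ₀)
      (heig ℓ₀ hℓ₀ hℓ₀N hℓ₀S) _ hRep g1 c₀ r₀ hg1 hc₀ hr₀ rfl
    have hk : IsCoprime ((ℓ₀ : ℤ) + 1 - a ℓ₀) (p : ℤ) :=
      ((Nat.prime_iff_prime_int.1 hpF.out).irreducible.coprime_iff_not_dvd.2 hℓ₀a).symm
    have hqp' : Nat.Coprime q p := (Nat.coprime_primes hqF.out hpF.out).2 hqp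
    exact m59ei_vert0_of_rel (A.comap (algebraMap ↥L1 Qb)) hπ N' q hq2 hqN' 1 isUnit_one
      (mul_one _).symm p hpF.out.one_le hqp' ℓ₀ hℓ₀ hℓ₀N hu1.unit hζu (a ℓ₀) hk g1 hg1 hα hrel

end Stmt

end Fermat.Agent.M59
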