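/-
M59 / Sink B / cell (G1) [EIS] (helper18), part 7: RULE A IN TERMS OF AN ORDER FUNCTION OF THE GAUSS
RING OF THE LEGENDRE COVER FIELD.  Prefix `m59ei_`.

`E = lg_E L (N q)` with its Gauss ring `VA = s36i_VA O hπ N q`, `ordA` an order function of `VA`
(`s36a_Ord`) with `ordA π = 1`.

* `m59ei_ordA_link`  : `ordA x = d ↔ x(X) · π^(-d)` is a Gauss unit (as a Laurent series);
* `m59ei_ordA_hecke` : RULE A: if `x, x' ∈ E` have the `q`-expansions `y(X²)`, `(T_ℓ y)(X²)` for a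
  function `y ≠ 0` of ANY level `M` prime to `ℓ` (`ζ_ℓ ∈ L`), then `ordA x' = (ℓ + 1) · ordA x`.
-/
import Mathlib
import Fermat.Agent.M59.SinkB.Eis.RuleA
import Fermat.Agent.M59.SinkB.Eis.Tower

set_option autoImplicit false
set_option linter.unusedSectionVars false
set_option linter.unusedVariables false
set_option linter.style.haveILetI false
set_option synthInstance.maxHeartbeats 400000
set_option maxHeartbeats 1000000

noncomputable section

open ModularCurve AlgebraicCurve IntermediateField IsLocalRing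
open Fermat.Agent.JT3 Fermat.Agent.SS Fermat.Agent.S35 Fermat.Agent.S36

namespace Fermat.Agent.M59

local notation "Qb" => AlgebraicClosure ℚ

section OrdA

variable {L : Type*} [Field L] [Algebra ℚ L] [CharZero L] [Algebra L Qb]
  (O : ValuationSubring L) [IsDiscreteValuationRing O] {π : O} (hπ : Irreducible π)
variable (N q : ℕ) [NeZero N] [NeZero q] [hq : Fact q.Prime] [CharP (ResidueField O) q]

theorem m59ei_qExpand_const (k : ℕ) [NeZero k] (c : L) :
    qExpand L k (algebraMap L (LaurentSeries L) c) = algebraMap L (LaurentSeries L) c :=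
  (qExpandAlgHomC L k).commutes c

/-- `ordA x = d` iff `x · π^(-d)` is a Gauss unit. -/
theorem m59ei_ordA_link (ordA : ↥(lg_E L (N * q)) → ℤ) (hoA : s36a_Ord (s36i_VA O hπ N q) ordA)
    (hϖ0 : ((π : ↥O) : L) ≠ 0)
    (hϖA : ordA (algebraMap L ↥(lg_E L (N * q)) ((π : ↥O) : L)) = 1)
    {x : ↥(lg_E L (N * q))} (hx : x ≠ 0) (d : ℤ) :
    ordA x = d ↔ m59ei_GU ↥O L ((x : LaurentSeries L) *
      algebraMap L (LaurentSeries L) (((π : ↥O) : L) ^ (-d))) := by
  have hc0 : ((π : ↥O) : L) ^ (-d) ≠ 0 := zpow_ne_zero _ hϖ0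
  have hcE : algebraMap L ↥(lg_E L (N * q)) (((π : ↥O) : L) ^ (-d)) ≠ 0 :=
    (map_ne_zero _).2 hc0
  have hϖE : algebraMap L ↥(lg_E L (N * q)) ((π : ↥O) : L) ≠ 0 := (map_ne_zero _).2 hϖ0
  have hx' : x * algebraMap L ↥(lg_E L (N * q)) (((π : ↥O) : L) ^ (-d)) ≠ 0 :=
    mul_ne_zero hx hcE
  have hcoe : ((x * algebraMap L ↥(lg_E L (N * q)) (((π : ↥O) : L) ^ (-d)) :
      ↥(lg_E L (N * q))) : LaurentSeries L) =
      (x : LaurentSeries L) * algebraMap L (LaurentSeries L) (((π : ↥O) : L) ^ (-d)) := by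
    rw [IntermediateField.coe_mul, IntermediateField.coe_algebraMap_apply]
  have hord : ordA (x * algebraMap L ↥(lg_E L (N * q)) (((π : ↥O) : L) ^ (-d))) =
      ordA x - d := by
    rw [hoA.mul _ _ hx hcE, map_zpow₀, hoA.zpow hϖE, hϖA]
    ring
  rw [← hcoe, ← m59ei_VA_unit_iff O hπ q N hx', ← hoA.unit _ hx', hord]
  constructor
  · intro h; rw [h]; ring
  · intro h; linarith

variable (ℓ : ℕ) [NeZero ℓ] (hℓ : ℓ.Prime)

include hℓ in
/-- **RULE A**, order form. -/
theorem m59ei_ordA_hecke (ordA : ↥(lg_E L (N * q)) → ℤ)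
    (hoA : s36a_Ord (s36i_VA O hπ N q) ordA) (hϖ0 : ((π : ↥O) : L) ≠ 0)
    (hϖA : ordA (algebraMap L ↥(lg_E L (N * q)) ((π : ↥O) : L)) = 1)
    (M : ℕ) [NeZero M] (hℓM : ¬ ℓ ∣ M) (ζ : Lˣ) (hζ : IsPrimitiveRoot ζ ℓ)
    (y : laurentBaseChange L (modularFunctionFieldFull M)) (hy : y ≠ 0)
    (x x' : ↥(lg_E L (N * q)))
    (hx : (x : LaurentSeries L) = qExpand L 2 (y : LaurentSeries L))
    (hx' : (x' : LaurentSeries L) =
      qExpand L 2 ((m59ei_T L M ℓ y : laurentBaseChange L (modularFunctionFieldFull M)) :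
        LaurentSeries L)) :
    ordA x' = ((ℓ : ℤ) + 1) * ordA x := by
  have hy0 : (y : LaurentSeries L) ≠ 0 := fun h => hy (Subtype.ext h)
  have hTy : m59ei_T L M ℓ y ≠ 0 := m59ei_T_ne_zero L M ℓ hℓ hℓM hy
  have hTy0 : ((m59ei_T L M ℓ y : laurentBaseChange L (modularFunctionFieldFull M)) :
      LaurentSeries L) ≠ 0 := fun h => hTy (Subtype.ext h)
  have hx0 : x ≠ 0 := by
    intro h
    rw [h] at hx
    exact hy0 (qExpand_injective 2 (by rw [← hx, map_zero]; rfl))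
  have hx'0 : x' ≠ 0 := by
    intro h
    rw [h] at hx'
    exact hTy0 (qExpand_injective 2 (by rw [← hx', map_zero]; rfl))
  set d : ℤ := ordA x with hd
  set c : L := ((π : ↥O) : L) ^ (-d) with hc
  have hc0 : c ≠ 0 := zpow_ne_zero _ hϖ0
  -- `y' = y · c` is a Gauss unit
  set y' : laurentBaseChange L (modularFunctionFieldFull M) :=
    y * algebraMap L (laurentBaseChange L (modularFunctionFieldFull M)) c with hy'
  have hy'0 : y' ≠ 0 := mul_ne_zero hy ((map_ne_zero _).2 hc0)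
  have hy'coe : (y' : LaurentSeries L) =
      (y : LaurentSeries L) * algebraMap L (LaurentSeries L) c := by
    rw [hy', IntermediateField.coe_mul, IntermediateField.coe_algebraMap_apply]
  have hy'0' : (y' : LaurentSeries L) ≠ 0 := fun h => hy'0 (Subtype.ext h)
  have h1 : m59ei_GU ↥O L ((x : LaurentSeries L) * algebraMap L (LaurentSeries L) c) :=
    (m59ei_ordA_link O hπ N q ordA hoA hϖ0 hϖA hx0 d).1 rfl
  have h2 : m59ei_GU ↥O L (qExpand L 2 (y' : LaurentSeries L)) := by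
    rw [hy'coe, map_mul, m59ei_qExpand_const, ← hx]
    exact h1
  have h3 : m59ei_GU ↥O L (y' : LaurentSeries L) :=
    (m59ei_GU_qExpand_iff π hπ.ne_zero hπ.maximalIdeal_eq 2 (m59ei_isQuot O M y') hy'0').1 h2
  have h4 := m59ei_GU_hecke O hπ M ℓ hℓ hℓM ζ hζ y' hy'0 h3
  have hTy' : m59ei_T L M ℓ y' = m59ei_T L M ℓ y *
      algebraMap L (laurentBaseChange L (modularFunctionFieldFull M)) (c ^ (ℓ + 1)) := by
    rw [hy', m59ei_T_mul, m59ei_hecke_const L M ℓ hℓ hℓM]
  have hcpow : c ^ (ℓ + 1) = ((π : ↥O) : L) ^ (-(((ℓ : ℤ) + 1) * d)) := by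
    rw [hc, ← zpow_natCast, ← zpow_mul]
    congr 1
    push_cast
    ring
  have h5 : m59ei_GU ↥O L ((x' : LaurentSeries L) *
      algebraMap L (LaurentSeries L) (((π : ↥O) : L) ^ (-(((ℓ : ℤ) + 1) * d)))) := by
    have h6 := m59ei_GU_qExpand (O := ↥O) (K := L) 2 h4
    rw [hTy', IntermediateField.coe_mul, IntermediateField.coe_algebraMap_apply, map_mul,
      m59ei_qExpand_const, ← hx', hcpow] at h6
    exact h6
  exact (m59ei_ordA_link O hπ N q ordA hoA hϖ0 hϖA hx'0 _).2 h5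

end OrdA

end Fermat.Agent.M59
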